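/-
P-CFT row CFT-N-A1 (helper96): `KummerDivisibleStatement` and `ESStableStatement`
of `Fermat.Agent.H76.Cft.GlobalDefs`.

* inertia groups are conjugated: `conj_mem_inertiaSubgroupIn_smul`;
* `IsUnramifiedOutside` is stable under `G_ℚ`: `isUnramifiedOutside_map`;
* `QS S` is `G_ℚ`-stable: `apply_mem_QS`;
* a `p`-th root of an `S`-unit of `QS S` generates a field unramified outside `S` (`p ∈ S`).
-/
import Fermat.Agent.H76.Cft.GlobalDefs

set_option autoImplicit false

noncomputable section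

namespace Fermat.Agent.H96.Cft

open scoped Pointwise
open Fermat.Agent.H76.Cft

section Generic

variable {K L : Type*} [Field K] [Field L] [Algebra K L]

/-- A valuation subring is closed under taking roots. -/
theorem mem_of_pow_mem (A : ValuationSubring L) {n : ℕ} (hn : n ≠ 0) {y : L}
    (h : y ^ n ∈ A) : y ∈ A := by
  rw [← A.valuation_le_one_iff] at h ⊢
  by_contra hlt
  rw [not_le] at hlt
  have h2 : 1 < A.valuation y ^ n := one_lt_pow₀ hlt hn
  rw [map_pow] at h
  exact absurd h (not_le.mpr h2)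

theorem nonunits_mul_mem_right (A : ValuationSubring L) {x y : L} (hx : x ∈ A.nonunits)
    (hy : y ∈ A) : x * y ∈ A.nonunits := by
  rw [ValuationSubring.mem_nonunits_iff] at hx ⊢
  rw [← A.valuation_le_one_iff] at hy
  rw [map_mul]
  calc A.valuation x * A.valuation y ≤ A.valuation x * 1 := mul_le_mul' le_rfl hy
    _ = A.valuation x := mul_one _
    _ < 1 := hx

theorem mem_decomposition_of_mem_inertia {A : ValuationSubring L} {σ : L ≃ₐ[K] L}
    (h : σ ∈ A.inertiaSubgroupIn K) : σ ∈ A.decompositionSubgroup K := by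
  obtain ⟨τ, _, rfl⟩ := h
  exact τ.2

theorem apply_sub_mem_nonunits_of_mem_inertia {A : ValuationSubring L}
    {σ : L ≃ₐ[K] L} (h : σ ∈ A.inertiaSubgroupIn K) {x : L} (hx : x ∈ A) :
    σ x - x ∈ A.nonunits := by
  obtain ⟨τ, hτ, rfl⟩ := h
  have hτ' : τ ∈ A.inertiaSubgroup K := hτ
  rw [ValuationSubring.inertiaSubgroup, MonoidHom.mem_ker] at hτ'
  have h1 : τ • (IsLocalRing.residue A ⟨x, hx⟩) = IsLocalRing.residue A ⟨x, hx⟩ := by
    have := congrArg (fun f : RingAut (IsLocalRing.ResidueField A) =>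
      f (IsLocalRing.residue A ⟨x, hx⟩)) hτ'
    exact this
  rw [← IsLocalRing.ResidueField.residue_smul, ← sub_eq_zero, ← map_sub,
    IsLocalRing.residue_eq_zero_iff, ← ValuationSubring.coe_mem_nonunits_iff] at h1
  exact h1

theorem mem_inertia_of_forall (A : ValuationSubring L) {σ : L ≃ₐ[K] L}
    (hσ : σ ∈ A.decompositionSubgroup K) (h : ∀ x ∈ A, σ x - x ∈ A.nonunits) :
    σ ∈ A.inertiaSubgroupIn K := by
  refine ⟨⟨σ, hσ⟩, ?_, rfl⟩
  show (⟨σ, hσ⟩ : A.decompositionSubgroup K) ∈ (MulSemiringAction.toRingAut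
    (A.decompositionSubgroup K) (IsLocalRing.ResidueField A)).ker
  rw [MonoidHom.mem_ker]
  ext x
  obtain ⟨a, rfl⟩ := IsLocalRing.residue_surjective x
  show (⟨σ, hσ⟩ : A.decompositionSubgroup K) • (IsLocalRing.residue A a) = IsLocalRing.residue A a
  rw [← IsLocalRing.ResidueField.residue_smul, ← sub_eq_zero, ← map_sub,
    IsLocalRing.residue_eq_zero_iff, ← ValuationSubring.coe_mem_nonunits_iff]
  exact h a a.2

theorem mem_smul_iff (g : L ≃ₐ[K] L) (A : ValuationSubring L) (x : L) :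
    x ∈ g • A ↔ g⁻¹ x ∈ A := by
  rw [ValuationSubring.mem_pointwise_smul_iff_inv_smul_mem]
  rfl

theorem apply_mem_smul_iff (g : L ≃ₐ[K] L) (A : ValuationSubring L) (x : L) :
    g x ∈ g • A ↔ x ∈ A := by
  rw [mem_smul_iff]
  have : g⁻¹ (g x) = x := by
    show (g⁻¹ * g) x = x
    rw [inv_mul_cancel]; rfl
  rw [this]

theorem mem_nonunits_smul_iff (g : L ≃ₐ[K] L) (A : ValuationSubring L) (x : L) :
    x ∈ (g • A).nonunits ↔ g⁻¹ x ∈ A.nonunits := by
  rw [ValuationSubring.mem_nonunits_iff_or, ValuationSubring.mem_nonunits_iff_or, mem_smul_iff,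
    map_inv₀, map_eq_zero]

theorem apply_mem_nonunits_smul_iff (g : L ≃ₐ[K] L) (A : ValuationSubring L) (x : L) :
    g x ∈ (g • A).nonunits ↔ x ∈ A.nonunits := by
  rw [mem_nonunits_smul_iff]
  have : g⁻¹ (g x) = x := by
    show (g⁻¹ * g) x = x
    rw [inv_mul_cancel]; rfl
  rw [this]

/-- Inertia groups are conjugated: `g I_A g⁻¹ ⊆ I_{g A}`. -/
theorem conj_mem_inertiaSubgroupIn_smul (g : L ≃ₐ[K] L) {A : ValuationSubring L}
    {σ : L ≃ₐ[K] L} (h : σ ∈ A.inertiaSubgroupIn K) :
    g * σ * g⁻¹ ∈ (g • A).inertiaSubgroupIn K := by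
  have hD : σ • A = A := mem_decomposition_of_mem_inertia h
  refine mem_inertia_of_forall (g • A) ?_ ?_
  · show (g * σ * g⁻¹) • (g • A) = g • A
    rw [mul_smul, inv_smul_smul, mul_smul, hD]
  · intro x hx
    rw [mem_smul_iff] at hx
    have h1 := apply_sub_mem_nonunits_of_mem_inertia h hx
    have h2 : (g * σ * g⁻¹) x - x = g (σ (g⁻¹ x) - g⁻¹ x) := by
      rw [map_sub]
      have : g (g⁻¹ x) = x := by
        show (g * g⁻¹) x = x
        rw [mul_inv_cancel]; rfl
      rw [this]
      rfl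
    rw [h2, apply_mem_nonunits_smul_iff]
    exact h1

theorem liesOverPrime_smul (g : L ≃ₐ[K] L) {A : ValuationSubring L} {q : ℕ}
    (h : A.LiesOverPrime q) : (g • A).LiesOverPrime q := by
  unfold ValuationSubring.LiesOverPrime at h ⊢
  rw [mem_nonunits_smul_iff, map_natCast]
  exact h

theorem mem_fixingSubgroup_adjoin_simple {σ : L ≃ₐ[K] L} {y : L} (h : σ y = y) :
    σ ∈ (IntermediateField.adjoin K {y}).fixingSubgroup := by
  have hle : IntermediateField.adjoin K {y} ≤
      IntermediateField.fixedField (Subgroup.zpowers σ) := by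
    rw [IntermediateField.adjoin_le_iff]
    rintro z hz
    rw [Set.mem_singleton_iff] at hz
    subst hz
    rw [SetLike.mem_coe, IntermediateField.mem_fixedField_iff]
    rintro f hf
    obtain ⟨k, rfl⟩ := Subgroup.mem_zpowers_iff.mp hf
    have hfix : σ ∈ MulAction.stabilizer (L ≃ₐ[K] L) z := h
    have := (MulAction.stabilizer (L ≃ₐ[K] L) z).zpow_mem hfix k
    exact this
  exact (IntermediateField.le_iff_le _ _).mp hle (Subgroup.mem_zpowers σ)

/-- Roots of unity of order prime to the residue characteristic which are congruent to `1`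
modulo the maximal ideal are equal to `1`. -/
theorem eq_one_of_pow_eq_one_of_sub_mem_nonunits (A : ValuationSubring L) {m : ℕ}
    (hm : (m : L) ∉ A.nonunits) {ζ : L} (hζ : ζ ^ m = 1) (h : ζ - 1 ∈ A.nonunits) : ζ = 1 := by
  have hm0 : m ≠ 0 := by
    rintro rfl
    apply hm
    rw [Nat.cast_zero, ValuationSubring.mem_nonunits_iff_or]
    exact Or.inl rfl
  have hζA : ζ ∈ A := mem_of_pow_mem A hm0 (by rw [hζ]; exact A.one_mem)
  by_contra hne
  set z : A := ⟨ζ, hζA⟩ with hz
  have hz1 : IsLocalRing.residue A z = 1 := by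
    rw [← sub_eq_zero, ← map_one (IsLocalRing.residue A), ← map_sub,
      IsLocalRing.residue_eq_zero_iff, ← ValuationSubring.coe_mem_nonunits_iff]
    exact h
  have hzm : z ^ m = 1 := by
    apply Subtype.ext
    rw [SubmonoidClass.coe_pow, OneMemClass.coe_one]
    exact hζ
  have hz_ne : z ≠ 1 := by
    intro h1
    apply hne
    have := congrArg (Subtype.val) h1
    rw [OneMemClass.coe_one] at this
    exact this
  have hsumA : ∑ i ∈ Finset.range m, z ^ i = 0 := by
    have h1 : (z - 1) * ∑ i ∈ Finset.range m, z ^ i = 0 := by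
      rw [mul_geom_sum, hzm, sub_self]
    exact (mul_eq_zero.mp h1).resolve_left (sub_ne_zero.mpr hz_ne)
  have hres : IsLocalRing.residue A (m : A) = 0 := by
    have := congrArg (IsLocalRing.residue A) hsumA
    rw [map_sum, map_zero] at this
    simp only [map_pow, hz1, one_pow, Finset.sum_const, Finset.card_range, nsmul_eq_mul,
      mul_one] at this
    rw [map_natCast]
    exact this
  rw [IsLocalRing.residue_eq_zero_iff, ← ValuationSubring.coe_mem_nonunits_iff] at hres
  apply hm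
  have e : (((m : A) : A) : L) = (m : L) := by push_cast; rfl
  rw [← e]
  exact hres

/-- Distinct primes cannot both lie in the maximal ideal. -/
theorem natCast_not_mem_nonunits (A : ValuationSubring L) {p q : ℕ} (hpq : Nat.Coprime p q)
    (hq : (q : L) ∈ A.nonunits) : (p : L) ∉ A.nonunits := by
  intro hp
  obtain ⟨a, b, hab⟩ := (Nat.isCoprime_iff_coprime.mpr hpq)
  have hpA : ((p : A) : A) ∈ IsLocalRing.maximalIdeal A := by
    rw [← ValuationSubring.coe_mem_nonunits_iff]
    have e : (((p : A) : A) : L) = (p : L) := by push_cast; rfl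
    rw [e]; exact hp
  have hqA : ((q : A) : A) ∈ IsLocalRing.maximalIdeal A := by
    rw [← ValuationSubring.coe_mem_nonunits_iff]
    have e : (((q : A) : A) : L) = (q : L) := by push_cast; rfl
    rw [e]; exact hq
  have h1 : ((a : A) * (p : A) + (b : A) * (q : A) : A) = 1 := by
    have := congrArg (Int.cast : ℤ → A) hab
    push_cast at this
    exact this
  have : (1 : A) ∈ IsLocalRing.maximalIdeal A := by
    rw [← h1]
    exact Ideal.add_mem _ (Ideal.mul_mem_left _ _ hpA) (Ideal.mul_mem_left _ _ hqA)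
  exact (Ideal.ne_top_iff_one _).mp (IsLocalRing.maximalIdeal.isMaximal A).ne_top this

end Generic

section Qbar

local notation "Qb" => AlgebraicClosure ℚ

/-- Galois conjugates of fields unramified outside `S` are unramified outside `S`. -/
theorem isUnramifiedOutside_map {S : Finset Nat.Primes} {F : IntermediateField ℚ Qb}
    (hF : F.IsUnramifiedOutside S) (g : GQ) :
    (F.map (g : Qb →ₐ[ℚ] Qb)).IsUnramifiedOutside S := by
  have hfd : FiniteDimensional ℚ F := hF.1
  refine ⟨?_, fun q hq A hA σ hσ => ?_⟩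
  · exact LinearEquiv.finiteDimensional
      (IntermediateField.equivMap F (g : Qb →ₐ[ℚ] Qb)).toLinearEquiv
  · rw [IntermediateField.mem_fixingSubgroup_iff]
    rintro z hz
    obtain ⟨w, hw, rfl⟩ := (IntermediateField.mem_map F).mp hz
    have h1 : g⁻¹ * σ * (g⁻¹)⁻¹ ∈ (g⁻¹ • A).inertiaSubgroupIn ℚ :=
      conj_mem_inertiaSubgroupIn_smul g⁻¹ hσ
    have h2 := hF.2 q hq (g⁻¹ • A) (liesOverPrime_smul g⁻¹ hA) h1
    rw [IntermediateField.mem_fixingSubgroup_iff] at h2
    have h3 := h2 w hw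
    rw [inv_inv] at h3
    have h4 : g ((g⁻¹ * σ * g) w) = g w := by rw [h3]
    have h5 : g ((g⁻¹ * σ * g) w) = σ (g w) := by
      show (g * (g⁻¹ * σ * g)) w = σ (g w)
      rw [← mul_assoc, ← mul_assoc, mul_inv_cancel, one_mul]
      rfl
    rw [h5] at h4
    exact h4

/-- `QS S` is stable under `G_ℚ`. -/
theorem apply_mem_QS (S : Finset Nat.Primes) (g : GQ) {x : Qb} (hx : x ∈ QS S) :
    g x ∈ QS S := by
  have hle : (QS S).map (g : Qb →ₐ[ℚ] Qb) ≤ QS S := by
    unfold QS
    rw [IntermediateField.map_iSup]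
    exact iSup_le fun F =>
      le_iSup (fun F : {F : IntermediateField ℚ Qb // F.IsUnramifiedOutside S} => F.1)
        ⟨F.1.map (g : Qb →ₐ[ℚ] Qb), isUnramifiedOutside_map F.2 g⟩
  exact hle ((IntermediateField.mem_map (QS S)).mpr ⟨x, hx, rfl⟩)

/-- Inertia at a place outside `S` acts trivially on `QS S`. -/
theorem apply_eq_of_mem_QS {S : Finset Nat.Primes} {q : Nat.Primes} (hq : q ∉ S)
    {A : ValuationSubring Qb} (hA : A.LiesOverPrime (q : ℕ)) {σ : GQ}
    (hσ : σ ∈ A.inertiaSubgroupIn ℚ) {x : Qb} (hx : x ∈ QS S) : σ x = x := by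
  have hle : QS S ≤ IntermediateField.fixedField (Subgroup.zpowers σ) := by
    unfold QS
    refine iSup_le fun F => ?_
    rw [IntermediateField.le_iff_le, Subgroup.zpowers_le]
    exact F.2.2 q hq A hA hσ
  have := hle hx
  rw [IntermediateField.mem_fixedField_iff] at this
  exact this σ (Subgroup.mem_zpowers σ)

theorem isPlaceOutside_smul {S : Finset Nat.Primes} (g : GQ) {A : ValuationSubring Qb}
    (hA : IsPlaceOutside S A) : IsPlaceOutside S (g • A) := by
  obtain ⟨q, hq, hqA⟩ := hA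
  exact ⟨q, hq, liesOverPrime_smul g hqA⟩

/-- **[A1']** `ES S` is stable under `G_ℚ`. -/
theorem esStable : ESStableStatement := by
  intro S g x hx
  obtain ⟨hxQ, hxU⟩ := hx
  refine ⟨apply_mem_QS S g hxQ, fun A hA => ?_⟩
  obtain ⟨h1, h2⟩ := hxU (g⁻¹ • A) (isPlaceOutside_smul g⁻¹ hA)
  rw [mem_smul_iff, inv_inv] at h1 h2
  refine ⟨h1, ?_⟩
  rw [← map_inv]
  exact h2

/-- **[A1]** For `p ∈ S`: a `p`-th root of an `S`-unit of `QS S` is an `S`-unit of `QS S`. -/
theorem kummerDivisible : KummerDivisibleStatement := by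
  intro p _ S hpS x y hxy hx
  obtain ⟨hxQ, hxU⟩ := hx
  have hp : p.Prime := Fact.out
  have hyU : ∀ A : ValuationSubring Qb, IsPlaceOutside S A →
      (y : Qb) ∈ A ∧ ((y⁻¹ : Qbˣ) : Qb) ∈ A := by
    intro A hA
    obtain ⟨h1, h2⟩ := hxU A hA
    constructor
    · apply mem_of_pow_mem A hp.ne_zero
      rw [← Units.val_pow_eq_pow_val, hxy]
      exact h1
    · apply mem_of_pow_mem A hp.ne_zero
      rw [← Units.val_pow_eq_pow_val, inv_pow, hxy]
      exact h2
  refine ⟨?_, hyU⟩
  have hF : (IntermediateField.adjoin ℚ {(y : Qb)}).IsUnramifiedOutside S := by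
    refine ⟨IntermediateField.adjoin.finiteDimensional
        ((AlgebraicClosure.isAlgebraic ℚ).isAlgebraic (y : Qb)).isIntegral,
      fun q hq A hA σ hσ => ?_⟩
    apply mem_fixingSubgroup_adjoin_simple
    have hx_fix : σ (x : Qb) = x := apply_eq_of_mem_QS hq hA hσ hxQ
    obtain ⟨hyA, hyinvA⟩ := hyU A ⟨q, hq, hA⟩
    have hy0 : (y : Qb) ≠ 0 := y.ne_zero
    have hinv : ((y⁻¹ : Qbˣ) : Qb) = (y : Qb)⁻¹ := Units.val_inv_eq_inv_val y
    have hζp : (σ (y : Qb) * (y : Qb)⁻¹) ^ p = 1 := by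
      rw [mul_pow, ← map_pow, inv_pow, ← Units.val_pow_eq_pow_val, hxy, hx_fix,
        mul_inv_cancel₀ x.ne_zero]
    have hζ1 : σ (y : Qb) * (y : Qb)⁻¹ - 1 ∈ A.nonunits := by
      have e : σ (y : Qb) * (y : Qb)⁻¹ - 1 = (σ (y : Qb) - y) * (y : Qb)⁻¹ := by
        rw [sub_mul, mul_inv_cancel₀ hy0]
      rw [e, ← hinv]
      exact nonunits_mul_mem_right A (apply_sub_mem_nonunits_of_mem_inertia hσ hyA) hyinvA
    have hpq : Nat.Coprime p (q : ℕ) := by
      rw [Nat.coprime_primes hp q.2]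
      rintro rfl
      apply hq
      have : ExtCitation.pPrime (q : ℕ) = q := Subtype.ext rfl
      rw [← this]
      exact hpS
    have hpA : (p : Qb) ∉ A.nonunits := natCast_not_mem_nonunits A hpq hA
    have h1 := eq_one_of_pow_eq_one_of_sub_mem_nonunits A hpA hζp hζ1
    have := congrArg (· * (y : Qb)) h1
    simp only [inv_mul_cancel_right₀ hy0, one_mul] at this
    exact this
  exact (le_iSup (fun F : {F : IntermediateField ℚ Qb // F.IsUnramifiedOutside S} => F.1)
    ⟨_, hF⟩) (IntermediateField.mem_adjoin_simple_self ℚ _)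

end Qbar

end Fermat.Agent.H96.Cft

end
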